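import Mathlib

/-!
# GATE-K / GATE-L : the norm-reduction formula, abstract form (helper66)

`F / F'` a finite extension of fields with an `F'`-basis `b`, `O' ⊂ F'` a subring with a ring hom
`π : O' →+* κ'` (valuation ring and residue map), `R ⊂ F` a subring which is `O'`-free on `b`
(`R = ⋂ W_i`, the sup-norm unit ball of ALL extensions `W_i` of `O'`, when `Σ e_i f_i = n`),
`red : R →+* P` a ring hom to a `κ'`-algebra `P` (in use `P = ∏ κ_i`) compatible with `π`, such that
the reductions of `b` form a `κ'`-basis `bbar` of `P`.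

* `norm_red` : for `u ∈ R`, `Nm_{F/F'} u ∈ O'` and `π (Nm_{F/F'} u) = Nm_{P/κ'} (red u)`.
* `norm_prod` : the norm of a product of two finite free algebras is the product of the norms
  (Mathlib only has `trace_prod`); iterate for nested products.
* `norm_red_prod` : `π (Nm u) = Nm_{κ₁/κ'} (red₁ u) * Nm_{κ₂/κ'} (red₂ u)`.
* `norm_eq_of_pow_eq` : purely inseparable degree `q` in characteristic `q`:
  `x ^ q = algebraMap a ⟹ Nm x = a`.

Mathlib only.
-/

namespace Fermat.Agent.GK.NormRed

open Module Matrix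

/-! ### norms of products -/

section Prod

variable (R : Type*) {S T : Type*} [CommRing R] [CommRing S] [CommRing T] [Algebra R S] [Algebra R T]

/-- The norm of a binary product algebra is the product of the norms. -/
theorem norm_prod [Module.Free R S] [Module.Free R T] [Module.Finite R S] [Module.Finite R T]
    (x : S × T) : Algebra.norm R x = Algebra.norm R x.1 * Algebra.norm R x.2 := by
  have h : Algebra.lmul R (S × T) x
      = LinearMap.prodMap (Algebra.lmul R S x.1) (Algebra.lmul R T x.2) := by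
    apply LinearMap.ext
    intro y
    rfl
  rw [Algebra.norm_apply, Algebra.norm_apply, Algebra.norm_apply, h, LinearMap.det_prodMap]

end Prod

/-! ### the reduction formula -/

section Red

variable {F' F : Type*} [Field F'] [Field F] [Algebra F' F]
variable {n : Type*} [Fintype n] [DecidableEq n] (b : Basis n F' F)
variable (O' : Subring F') {κ' : Type*} [Field κ'] (π : O' →+* κ')
variable {P : Type*} [CommRing P] [Algebra κ' P]
variable (R : Subring F) (red : R →+* P)

/-- **Norm-reduction formula.**  If `R = ⊕ O' b_j` and the reductions of the `b_j` form a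
`κ'`-basis of the residue algebra `P`, then the norm of `u ∈ R` lies in `O'` and reduces to the
norm of `red u`. -/
theorem norm_red (hbR : ∀ j, b j ∈ R) (hrepr : ∀ x ∈ R, ∀ j, b.repr x j ∈ O')
    (hO'R : ∀ a ∈ O', algebraMap F' F a ∈ R)
    (hcompat : ∀ (a : F') (ha : a ∈ O'),
      red ⟨algebraMap F' F a, hO'R a ha⟩ = algebraMap κ' P (π ⟨a, ha⟩))
    (bbar : Basis n κ' P) (hbbar : ∀ j, bbar j = red ⟨b j, hbR j⟩)
    {u : F} (hu : u ∈ R) :
    ∃ hN : Algebra.norm F' u ∈ O', π ⟨Algebra.norm F' u, hN⟩ = Algebra.norm κ' (red ⟨u, hu⟩) := by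
  classical
  -- the matrix of multiplication by `u`, with entries in `O'`
  have hent : ∀ i j, Algebra.leftMulMatrix b u i j ∈ O' := by
    intro i j
    rw [Algebra.leftMulMatrix_eq_repr_mul]
    exact hrepr _ (R.mul_mem hu (hbR j)) i
  let M0 : Matrix n n O' := fun i j => ⟨Algebra.leftMulMatrix b u i j, hent i j⟩
  have hM : Algebra.leftMulMatrix b u = M0.map O'.subtype := by
    ext i j
    rfl
  have hdet : Algebra.norm F' u = O'.subtype (M0.det) := by
    rw [Algebra.norm_eq_matrix_det b u, hM]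
    exact (RingHom.map_det O'.subtype M0).symm
  have hN : Algebra.norm F' u ∈ O' := by rw [hdet]; exact (M0.det).2
  refine ⟨hN, ?_⟩
  have e1 : (⟨Algebra.norm F' u, hN⟩ : O') = M0.det := Subtype.ext hdet
  rw [e1, RingHom.map_det, Algebra.norm_eq_matrix_det bbar]
  congr 1
  ext i j
  rw [Algebra.leftMulMatrix_eq_repr_mul]
  -- expand `u * b j` on the basis inside `R` and reduce
  have hsum : u * b j = ∑ l, algebraMap F' F (M0 l j : F') * b l := by
    have := (b.sum_repr (u * b j)).symm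
    rw [this]
    refine Finset.sum_congr rfl fun l _ => ?_
    rw [Algebra.smul_def]
    congr 2
    exact (Algebra.leftMulMatrix_eq_repr_mul b u l j).symm
  have hsumR : (⟨u, hu⟩ : R) * ⟨b j, hbR j⟩
      = ∑ l, (⟨algebraMap F' F (M0 l j : F'), hO'R _ (M0 l j).2⟩ : R) * ⟨b l, hbR l⟩ := by
    apply Subtype.ext
    rw [AddSubmonoidClass.coe_finsetSum]
    exact hsum
  have hredsum : red ⟨u, hu⟩ * bbar j = ∑ l, π (M0 l j) • bbar l := by
    rw [hbbar j, ← map_mul, hsumR, map_sum]
    refine Finset.sum_congr rfl fun l _ => ?_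
    rw [map_mul, hcompat _ (M0 l j).2, hbbar l, Algebra.smul_def]
  rw [hredsum, Basis.repr_sum_self]
  rfl

end Red

section RedProd

variable {F' F : Type*} [Field F'] [Field F] [Algebra F' F]
variable {n : Type*} [Fintype n] [DecidableEq n] (b : Basis n F' F)
variable (O' : Subring F') {κ' : Type*} [Field κ'] (π : O' →+* κ')
variable (R : Subring F)

/-- **Norm-reduction, two components** (`P = κ₁ × κ₂`): `π (Nm u) = Nm (red₁ u) * Nm (red₂ u)`. -/
theorem norm_red_prod {κ₁ κ₂ : Type*} [Field κ₁] [Field κ₂] [Algebra κ' κ₁] [Algebra κ' κ₂]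
    [FiniteDimensional κ' κ₁] [FiniteDimensional κ' κ₂]
    (red₁ : R →+* κ₁) (red₂ : R →+* κ₂)
    (hbR : ∀ j, b j ∈ R) (hrepr : ∀ x ∈ R, ∀ j, b.repr x j ∈ O')
    (hO'R : ∀ a ∈ O', algebraMap F' F a ∈ R)
    (hc₁ : ∀ (a : F') (ha : a ∈ O'),
      red₁ ⟨algebraMap F' F a, hO'R a ha⟩ = algebraMap κ' κ₁ (π ⟨a, ha⟩))
    (hc₂ : ∀ (a : F') (ha : a ∈ O'),
      red₂ ⟨algebraMap F' F a, hO'R a ha⟩ = algebraMap κ' κ₂ (π ⟨a, ha⟩))
    (bbar : Basis n κ' (κ₁ × κ₂))
    (hbbar : ∀ j, bbar j = (red₁ ⟨b j, hbR j⟩, red₂ ⟨b j, hbR j⟩))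
    {u : F} (hu : u ∈ R) :
    ∃ hN : Algebra.norm F' u ∈ O', π ⟨Algebra.norm F' u, hN⟩
      = Algebra.norm κ' (red₁ ⟨u, hu⟩) * Algebra.norm κ' (red₂ ⟨u, hu⟩) := by
  obtain ⟨hN, h⟩ := norm_red b O' π R (red₁.prod red₂) hbR hrepr hO'R
    (fun a ha => by
      rw [RingHom.prod_apply, hc₁ a ha, hc₂ a ha]
      rfl)
    bbar (fun j => by rw [hbbar j]; rfl) hu
  refine ⟨hN, ?_⟩
  rw [h, norm_prod]
  rfl

end RedProd

/-! ### purely inseparable extensions of degree `q` -/

section Insep

variable {K L : Type*} [Field K] [Field L] [Algebra K L]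

/-- In characteristic `q`, if `[L : K] = q` and `x ^ q = algebraMap K L a`, then
`Nm_{L/K} x = a`.  (E.g. `L = 𝔉` over `K = 𝔉` through `Ψ`, `Ψ f = (φ⁻¹ f)^q`: `Nm x = φ x`.) -/
theorem norm_eq_of_pow_eq (q : ℕ) [hq : Fact q.Prime] [CharP K q] (hdeg : finrank K L = q)
    {x : L} {a : K} (hx : x ^ q = algebraMap K L a) : Algebra.norm K x = a := by
  have h1 : Algebra.norm K (x ^ q) = (Algebra.norm K x) ^ q := map_pow _ _ _
  have h2 : Algebra.norm K (algebraMap K L a) = a ^ q := by
    rw [Algebra.norm_algebraMap, hdeg]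
  rw [hx, h2] at h1
  exact (frobenius_inj K q (by simpa [frobenius_def] using h1.symm))

end Insep

end Fermat.Agent.GK.NormRed
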